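import Fermat.Agent.H67.ORD.NmPGChart
import Fermat.Agent.H84.ORD.NodalModelAPI
import Fermat.Agent.H82.SS.Points

/-!
# P-ORD, block B1, row B1-D-PG (helper67) : PLACE GENERATORS at the `ℚ̄`-level

`nmPlaceGen M p : Fermat.Agent.H84.ORD.NmPlaceGenStatement M p` : for `p` an odd prime, `p ∤ M`,
`4 ∣ M`, `A` a valuation subring of `ℚ̄` over `p`: every place `P` of `ℚ̄(X₀(M p))` has a
uniformiser which is a unit at all other places with the same centre.

Descent of `Fermat.Agent.H45.SSPlaceGenStatement M p jq R₁ 1 M` (ordinary points helper41,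
crossing points helper8 + helper59, cusps helper67, chart transfer helper66) to a number field
`K` over which `P` is rational and a uniformiser of `P` is defined.
-/

set_option autoImplicit false
set_option linter.style.haveILetI false
set_option linter.unusedSectionVars false
set_option linter.unusedVariables false
set_option synthInstance.maxHeartbeats 400000
set_option maxHeartbeats 1600000

noncomputable section

namespace Fermat.Agent.H67.ORD

open ModularCurve AlgebraicCurve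
open Fermat.Agent.H72.FF Fermat.Agent.H84.ORD Fermat.Agent.H93.KL Fermat.Agent.H22.KL
open Fermat.Agent.H45

/-- The model-level place generators at the pair `(M, p)`. -/
theorem nmPG_model (M p : ℕ) [NeZero M] [NeZero p] (hp : p.Prime) (hp2 : p ≠ 2)
    (hcop : Nat.Coprime M p) (h4 : 4 ∣ M) :
    ∃ R₁ : ℕ, 0 < R₁ ∧ SSPlaceGenStatement M p jq R₁ 1 M := by
  haveI : NeZero (M * p) := ⟨Nat.mul_ne_zero (NeZero.ne M) (NeZero.ne p)⟩
  have hpM : ¬ p ∣ M := (Nat.Prime.coprime_iff_not_dvd hp).1 hcop.symm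
  obtain ⟨R₁, hR₁, hOrd⟩ := Fermat.Agent.H41.SS.ssPlaceGenOrd_all M p hp hpM
    (fun _ => h4) (fun h2 => absurd h2 hp2)
  have hTr : ModelTranscendentalStatement (M * p) jq :=
    Fermat.Agent.H58.modelTranscendental_jq (M * p)
  have hFin := Fermat.Agent.H57.SS.modelFinite (M * p)
  have hW : ∀ (K₁ : Type) [Field K₁] [Algebra ℚ K₁] [FiniteDimensional ℚ K₁],
      ∃ W : ModelField K₁ (M * p) ≃ₐ[K₁] ModelField K₁ (M * p),
        Fermat.Agent.H82.SS.IsAtkinLehnerModel K₁ M p W :=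
    fun K₁ _ _ _ => Fermat.Agent.H62.SS.modelAtkinLehnerExists M p hcop K₁
  exact ⟨R₁, hR₁, ssPlaceGen_of_parts M p jq R₁ 1 M hTr hFin hW
    Fermat.Agent.H66.CT.chartTransfer hOrd
    (Fermat.Agent.H8.SS.ssPlaceGenCross M p h4 hp hp2 hpM 1)
    (Fermat.Agent.H67.SS.ssPlaceGenCusp M p hp hpM)⟩

/-- the `j`-function over `K₁` -/
def pgJ (K₁ : Type) [Field K₁] [Algebra ℚ K₁] (N : ℕ) [NeZero N] : ModelField K₁ N :=
  ⟨coeffEmb K₁ jq, coeffEmb_mem_laurentBaseChange K₁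
    (modularFunctionField_le_full N (jq_mem N))⟩

theorem pgBc_pgJ {K₁ : Type} [Field K₁] [Algebra ℚ K₁] (ι : K₁ →+* QBar) (N : ℕ) [NeZero N] :
    pgBc ι (pgJ K₁ N) = nmJ N := by
  apply Subtype.ext
  show coeffMap ι (coeffEmb K₁ jq) = coeffEmb (AlgebraicClosure ℚ) (qExpand ℚ 1 jq)
  rw [qExpand_one_apply, coeffEmb, coeffEmb, coeffMap_coeffMap]
  exact coeffMap_congr (Subsingleton.elim _ _) jq

/-- **[PG] over a given number field** `K` : `P` rational over `K`, a uniformiser of `P`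
defined over `K`, enough roots of unity in `K`. -/
theorem nmPlaceGen_of_field (M p : ℕ) [NeZero M] [NeZero p] (A : ValuationSubring Qb)
    (h : NmSetup M p A) (P : Place Qb (FLb (M * p)))
    (R₁ : ℕ) (hPG : SSPlaceGenStatement M p jq R₁ 1 M)
    (K : IntermediateField ℚ QBar) [FiniteDimensional ℚ ↥K]
    (hr1 : ∃ z : ↥K, IsPrimitiveRoot z R₁) (hr3 : ∃ z : ↥K, IsPrimitiveRoot z M)
    (τ : ModelField ↥K (M * p)) (hτord : P.ord (pgBc (algebraMap ↥K QBar) τ) = 1)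
    (hrat : ∀ z ∈ pgRes (algebraMap ↥K QBar) (modularFunctionFieldFull (M * p)) P, ∃ c : ↥K,
      z - algebraMap ↥K (ModelField ↥K (M * p)) c ∈
        (pgRes (algebraMap ↥K QBar) (modularFunctionFieldFull (M * p)) P).nonunits) :
    ∃ t : FLb (M * p), P.ord t = 1 ∧
      ∀ P' : Place Qb (FLb (M * p)), nmCentre A P' = nmCentre A P → P' ≠ P →
        P'.ord t = 0 := by
  classical
  haveI : NeZero (M * p) := ⟨Nat.mul_ne_zero (NeZero.ne M) (NeZero.ne p)⟩
  -- the discrete valuation ring `A ∩ K`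
  haveI hdvr : IsDiscreteValuationRing ↥(A.comap (algebraMap ↥K QBar)) :=
    Fermat.Agent.H34.modelDVR ↥K (algebraMap ↥K QBar) A p h.prime h.liesOver
  letI algE : Algebra ↥(A.comap (algebraMap ↥K QBar)) (ModelField ↥K (M * p)) :=
    ((algebraMap ↥K (ModelField ↥K (M * p))).comp
      (algebraMap ↥(A.comap (algebraMap ↥K QBar)) ↥K)).toAlgebra
  haveI : IsScalarTower ↥(A.comap (algebraMap ↥K QBar)) ↥K (ModelField ↥K (M * p)) :=
    IsScalarTower.of_algebraMap_eq (fun _ => rfl)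
  obtain ⟨ϖ, hϖ⟩ := IsDiscreteValuationRing.exists_irreducible
    ↥(A.comap (algebraMap ↥K QBar))
  have hA₀ : ∀ a : ↥(A.comap (algebraMap ↥K QBar)),
      algebraMap ↥K QBar (algebraMap ↥(A.comap (algebraMap ↥K QBar)) ↥K a) ∈ A := fun a => a.2
  have hA₀' : ∀ c : ↥K, algebraMap ↥K QBar c ∈ A →
      ∃ a : ↥(A.comap (algebraMap ↥K QBar)),
        algebraMap ↥(A.comap (algebraMap ↥K QBar)) ↥K a = c :=
    fun c hc => ⟨⟨c, hc⟩, rfl⟩
  have hunit : ∀ a : ↥(A.comap (algebraMap ↥K QBar)),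
      algebraMap ↥K QBar (algebraMap ↥(A.comap (algebraMap ↥K QBar)) ↥K a) ∉ A.nonunits →
      IsUnit a := by
    intro a ha
    rw [ValuationSubring.mem_nonunits_iff_or] at ha
    have ha0 : algebraMap ↥K QBar (a : ↥K) ≠ 0 := fun h0 => ha (Or.inl h0)
    have hai : (algebraMap ↥K QBar (a : ↥K))⁻¹ ∈ A := by
      by_contra hcon
      exact ha (Or.inr hcon)
    have hai' : (a : ↥K)⁻¹ ∈ A.comap (algebraMap ↥K QBar) := by
      rw [ValuationSubring.mem_comap, map_inv₀]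
      exact hai
    have ha0' : (a : ↥K) ≠ 0 := fun h0 => ha0 (by rw [h0, map_zero])
    refine IsUnit.of_mul_eq_one (⟨(a : ↥K)⁻¹, hai'⟩ : ↥(A.comap (algebraMap ↥K QBar))) ?_
    apply Subtype.ext
    show (a : ↥K) * (a : ↥K)⁻¹ = 1
    exact mul_inv_cancel₀ ha0'
  have hϖ' : algebraMap ↥K QBar (algebraMap ↥(A.comap (algebraMap ↥K QBar)) ↥K ϖ) ∈
      A.nonunits := by
    by_contra hcon
    exact hϖ.not_isUnit (hunit ϖ hcon)
  have hp' : ¬ IsUnit ((p : ℕ) : ↥(A.comap (algebraMap ↥K QBar))) := by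
    intro hu
    obtain ⟨v, hv⟩ := hu.exists_right_inv
    have h1 : ((p : ℕ) : QBar) * algebraMap ↥K QBar (v : ↥K) = 1 := by
      have h2 := congrArg (fun z : ↥(A.comap (algebraMap ↥K QBar)) =>
        algebraMap ↥K QBar (z : ↥K)) hv
      simpa using h2
    have h3 : ((p : ℕ) : QBar) ∈ A.nonunits := h.liesOver
    rw [ValuationSubring.mem_nonunits_iff_or] at h3
    rcases h3 with h3 | h3
    · rw [h3, zero_mul] at h1
      exact zero_ne_one h1
    · apply h3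
      have h4 : ((p : ℕ) : QBar)⁻¹ = algebraMap ↥K QBar (v : ↥K) :=
        inv_eq_of_mul_eq_one_right h1
      rw [h4]
      exact v.2
  have hr2 : ∃ z : ↥K, IsPrimitiveRoot z 1 := ⟨1, IsPrimitiveRoot.one⟩
  -- the chart
  have hbx : pgBc (algebraMap ↥K QBar) (pgJ ↥K (M * p)) = nmJ (M * p) :=
    pgBc_pgJ (algebraMap ↥K QBar) (M * p)
  obtain ⟨y₁, hy₁, hyY⟩ : ∃ y₁ : ModelField ↥K (M * p),
      (y₁ = pgJ ↥K (M * p) ∨ y₁ = (pgJ ↥K (M * p))⁻¹) ∧
      pgBc (algebraMap ↥K QBar) y₁ = nmY A P := by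
    rcases nmY_eq_or A P with hY | hY
    · exact ⟨pgJ ↥K (M * p), Or.inl rfl, by rw [hbx, hY]⟩
    · exact ⟨(pgJ ↥K (M * p))⁻¹, Or.inr rfl, by rw [map_inv₀, hbx, hY]⟩
  exact nmPG_core A P (algebraMap ↥K QBar) hA₀ hA₀' ϖ hϖ' hrat y₁ hyY
    (fun 𝔪 h𝔪 hϖ𝔪 => hPG ↥K ↥(A.comap (algebraMap ↥K QBar)) hp' hr1 hr2 hr3 ϖ hϖ
      (pgJ ↥K (M * p)) rfl y₁ hy₁ 𝔪 h𝔪 hϖ𝔪)
    τ hτord

/-- **[PG] PLACE GENERATORS at the `ℚ̄`-level.** -/
theorem nmPlaceGen (M p : ℕ) [NeZero M] [NeZero p] : NmPlaceGenStatement M p := by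
  classical
  intro A h P
  haveI : NeZero (M * p) := ⟨Nat.mul_ne_zero (NeZero.ne M) (NeZero.ne p)⟩
  obtain ⟨R₁, hR₁, hPG⟩ := nmPG_model M p h.prime h.odd h.cop h.four
  -- a uniformiser of `P`
  obtain ⟨π, -, hπ⟩ := Fermat.Agent.H23.exists_irreducible_ord_one P
  obtain ⟨f, hf⟩ : ∃ f : FLb (M * p), P.ord f = 1 := ⟨_, hπ⟩
  have hf0 : f ≠ 0 := by
    intro h0
    rw [h0, Place.ord_zero] at hf
    exact zero_ne_one hf
  -- the number field
  obtain ⟨Kfix, hKfixfin, hKfix⟩ := Fermat.Agent.H70.SS.exists_field_fixing_support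
    (modularFunctionFieldFull (M * p)) f (Fermat.Agent.H70.SS.ss_finite_support (M * p) f hf0)
  obtain ⟨Kf, hKffin, hKf⟩ := coeffDescentFinal (modularFunctionFieldFull (M * p))
    (f : LaurentSeries QBar) f.2
  obtain ⟨ζ₁, hζ₁⟩ := Fermat.Agent.H70.SS.exists_primitiveRoot_qbar R₁ hR₁
  obtain ⟨ζ₃, hζ₃⟩ := Fermat.Agent.H70.SS.exists_primitiveRoot_qbar M
    (Nat.pos_of_ne_zero (NeZero.ne M))
  haveI halg : Algebra.IsAlgebraic ℚ QBar := AlgebraicClosure.isAlgebraic ℚ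
  obtain ⟨K, hKdef⟩ : ∃ K : IntermediateField ℚ QBar,
      K = Kfix ⊔ Kf ⊔ IntermediateField.adjoin ℚ ({ζ₁, ζ₃} : Set QBar) := ⟨_, rfl⟩
  haveI : FiniteDimensional ℚ ↥Kfix := hKfixfin
  haveI : FiniteDimensional ℚ ↥Kf := hKffin
  haveI : FiniteDimensional ℚ ↥(IntermediateField.adjoin ℚ ({ζ₁, ζ₃} : Set QBar)) :=
    IntermediateField.finiteDimensional_adjoin
      (fun x _ => (Algebra.IsAlgebraic.isAlgebraic (R := ℚ) x).isIntegral)
  haveI : FiniteDimensional ℚ ↥(Kfix ⊔ Kf) := IntermediateField.finiteDimensional_sup _ _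
  haveI hKfin : FiniteDimensional ℚ ↥K := by
    rw [hKdef]
    exact IntermediateField.finiteDimensional_sup _ _
  have hKfixK : Kfix ≤ K := by rw [hKdef]; exact le_trans le_sup_left le_sup_left
  have hKfK : Kf ≤ K := by rw [hKdef]; exact le_trans le_sup_right le_sup_left
  have hadj : ∀ c ∈ ({ζ₁, ζ₃} : Set QBar), c ∈ K := fun c hc => by
    rw [hKdef]
    exact (le_sup_right : IntermediateField.adjoin ℚ ({ζ₁, ζ₃} : Set QBar) ≤ _)
      (IntermediateField.subset_adjoin ℚ _ hc)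
  clear hKdef
  -- the descended uniformiser
  obtain ⟨f₁, hf₁mem, hf₁⟩ := hKf ↥K (algebraMap ↥K QBar) (fun c hc => ⟨⟨c, hKfK hc⟩, rfl⟩)
  have hτ : pgBc (algebraMap ↥K QBar) (⟨f₁, hf₁mem⟩ : ModelField ↥K (M * p)) = f :=
    Subtype.ext hf₁
  have hτord : P.ord (pgBc (algebraMap ↥K QBar) (⟨f₁, hf₁mem⟩ : ModelField ↥K (M * p))) = 1 := by
    rw [hτ]; exact hf
  -- rationality of the restricted place
  have hrat : ∀ z ∈ pgRes (algebraMap ↥K QBar) (modularFunctionFieldFull (M * p)) P,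
      ∃ c : ↥K, z - algebraMap ↥K (ModelField ↥K (M * p)) c ∈
        (pgRes (algebraMap ↥K QBar) (modularFunctionFieldFull (M * p)) P).nonunits := by
    intro z hz
    exact Fermat.Agent.H70.SS.rational_of_fixed (modularFunctionFieldFull (M * p)) K P
      (Fermat.Agent.H70.SS.ss_deg_eq_one_bar (M * p) P)
      (fun σ hσ => hKfix σ (fun c hc => hσ c (hKfixK hc)) P (by rw [hf]; exact one_ne_zero))
      (pgPlace (algebraMap ↥K QBar) (modularFunctionFieldFull (M * p)) P)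
      (pgPlace_ord (algebraMap ↥K QBar) (modularFunctionFieldFull (M * p)) P _ hτord) z hz
  -- roots of unity
  have hroot : ∀ (R : ℕ) (ζ : QBar), IsPrimitiveRoot ζ R → ζ ∈ K →
      ∃ z : ↥K, IsPrimitiveRoot z R := by
    intro R ζ hζ hζK
    refine ⟨⟨ζ, hζK⟩, IsPrimitiveRoot.of_map_of_injective (f := algebraMap ↥K QBar) ?_
      (algebraMap ↥K QBar).injective⟩
    exact hζ
  exact nmPlaceGen_of_field M p A h P R₁ hPG K
    (hroot R₁ ζ₁ hζ₁ (hadj ζ₁ (by simp))) (hroot M ζ₃ hζ₃ (hadj ζ₃ (by simp)))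
    _ hτord hrat

end Fermat.Agent.H67.ORD
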