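import Fermat.Agent.H67.ORD.PlaceRestrict

/-!
# P-ORD, block B1 (descent dictionary, helper67) : a rational place has ONE place above it

* `exists_klBc_rep` : every element of `F = F_{ℚ̄}` is a finite sum `∑ cᵢ bc (gᵢ)` with
  `cᵢ ∈ ℚ̄`, `gᵢ ∈ F_{K₁}`;
* `pg_unit_rep` : if `P`, `P'` restrict to the same RATIONAL place of `F_{K₁}` with uniformiser
  `τ`, every nonzero such sum is `bc τ ^ m * u` with `u` a unit at `P` and at `P'`;
* `place_eq_of_pgRes_eq` : hence `P = P'`.
-/

set_option autoImplicit false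
set_option linter.style.haveILetI false
set_option linter.unusedSectionVars false

noncomputable section

namespace Fermat.Agent.H67.ORD

open ModularCurve AlgebraicCurve Fermat.Agent.H93.KL

section Generic

variable {K₁ : Type} [Field K₁] [Algebra ℚ K₁] (ι : K₁ →+* QBar)
  (F₀ : IntermediateField ℚ (LaurentSeries ℚ))

set_option synthInstance.maxHeartbeats 400000 in
/-- Every element of `F_{ℚ̄}` is a finite `ℚ̄`-linear combination of elements of `F_{K₁}`. -/
theorem exists_klBc_rep (f : ↥(laurentBaseChange QBar F₀)) :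
    ∃ (n : ℕ) (c : Fin n → QBar) (g : Fin n → ↥(laurentBaseChange K₁ F₀)),
      f = ∑ i, algebraMap QBar ↥(laurentBaseChange QBar F₀) (c i) * klBc ι F₀ (g i) := by
  letI algF : Algebra ↥(laurentBaseChange K₁ F₀) ↥(laurentBaseChange QBar F₀) :=
    (klBc ι F₀).toAlgebra
  letI algK : Algebra K₁ ↥(laurentBaseChange QBar F₀) :=
    ((algebraMap QBar ↥(laurentBaseChange QBar F₀)).comp ι).toAlgebra
  letI modF : Module ↥(laurentBaseChange K₁ F₀) ↥(laurentBaseChange QBar F₀) :=
    Algebra.toModule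
  haveI tower : IsScalarTower K₁ ↥(laurentBaseChange K₁ F₀) ↥(laurentBaseChange QBar F₀) :=
    IsScalarTower.of_algebraMap_eq
      (fun a => (Fermat.Agent.H73.KLDesc.klBc_algebraMap ι F₀ a).symm)
  have halg : ∀ x ∈ Set.range (algebraMap QBar ↥(laurentBaseChange QBar F₀)),
      IsAlgebraic ↥(laurentBaseChange K₁ F₀) x := by
    rintro x ⟨c, rfl⟩
    have hc : IsIntegral ℚ c := ((AlgebraicClosure.isAlgebraic ℚ).isAlgebraic c).isIntegral
    obtain ⟨p, hp, hpc⟩ := hc
    have h1 : IsIntegral K₁ (algebraMap QBar ↥(laurentBaseChange QBar F₀) c) := by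
      refine ⟨p.map (algebraMap ℚ K₁), hp.map _, ?_⟩
      rw [Polynomial.eval₂_map]
      have hcomp : (algebraMap K₁ ↥(laurentBaseChange QBar F₀)).comp (algebraMap ℚ K₁)
          = (algebraMap QBar ↥(laurentBaseChange QBar F₀)).comp (algebraMap ℚ QBar) :=
        Subsingleton.elim _ _
      rw [hcomp, ← Polynomial.hom_eval₂, hpc, map_zero]
    exact (h1.tower_top (A := ↥(laurentBaseChange K₁ F₀))).isAlgebraic
  have hgen : IntermediateField.adjoin ↥(laurentBaseChange K₁ F₀)
      (Set.range (algebraMap QBar ↥(laurentBaseChange QBar F₀))) = ⊤ := by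
    rw [eq_top_iff]
    rintro ⟨z, hz⟩ -
    exact Fermat.Agent.H73.KLDesc.mem_of_mem_closure ι F₀
      (IntermediateField.adjoin ↥(laurentBaseChange K₁ F₀)
        (Set.range (algebraMap QBar ↥(laurentBaseChange QBar F₀)))).toSubfield
      (fun c => IntermediateField.subset_adjoin _ _ ⟨c, rfl⟩)
      (fun f => IntermediateField.algebraMap_mem _ f) z hz
  have h1 : f ∈ (IntermediateField.adjoin ↥(laurentBaseChange K₁ F₀)
      (Set.range (algebraMap QBar ↥(laurentBaseChange QBar F₀)))).toSubalgebra := by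
    rw [hgen]
    trivial
  rw [IntermediateField.adjoin_toSubalgebra_of_isAlgebraic halg] at h1
  have h2 : f ∈ Subalgebra.toSubmodule (Algebra.adjoin ↥(laurentBaseChange K₁ F₀)
      (Set.range (algebraMap QBar ↥(laurentBaseChange QBar F₀)))) := h1
  rw [Algebra.adjoin_eq_span] at h2
  have hcl : (Submonoid.closure (Set.range (algebraMap QBar ↥(laurentBaseChange QBar F₀))) :
      Set ↥(laurentBaseChange QBar F₀)) =
      Set.range (algebraMap QBar ↥(laurentBaseChange QBar F₀)) := by
    have h3 : Set.range (algebraMap QBar ↥(laurentBaseChange QBar F₀)) =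
        ((MonoidHom.mrange ((algebraMap QBar ↥(laurentBaseChange QBar F₀) : QBar →+*
          ↥(laurentBaseChange QBar F₀)) : QBar →* ↥(laurentBaseChange QBar F₀)) :
          Submonoid ↥(laurentBaseChange QBar F₀)) : Set ↥(laurentBaseChange QBar F₀)) := by
      ext x
      simp
    rw [h3, Submonoid.closure_eq]
  rw [hcl] at h2
  obtain ⟨n, a, b, hab⟩ := Submodule.mem_span_set'.mp h2
  choose c hc using fun i => (b i).2
  refine ⟨n, c, a, ?_⟩
  rw [← hab]
  refine Finset.sum_congr rfl fun i _ => ?_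
  rw [hc i, Algebra.smul_def, mul_comm]
  rfl

variable {ι F₀}

/-- a nonzero constant plus an element of the maximal ideal is a unit -/
theorem pg_const_add_unit (P : Place QBar ↥(laurentBaseChange QBar F₀)) (γ : QBar)
    (hγ : γ ≠ 0) (ε : ↥(laurentBaseChange QBar F₀)) (hε : ε ∈ P.toValuationSubring.nonunits) :
    algebraMap QBar ↥(laurentBaseChange QBar F₀) γ + ε ∈ P.toValuationSubring ∧
    (algebraMap QBar ↥(laurentBaseChange QBar F₀) γ + ε)⁻¹ ∈ P.toValuationSubring := by
  have hεV : ε ∈ P.toValuationSubring := ValuationSubring.nonunits_subset hε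
  have hmem : algebraMap QBar ↥(laurentBaseChange QBar F₀) γ + ε ∈ P.toValuationSubring :=
    P.toValuationSubring.add_mem _ _ (P.algebraMap_mem' γ) hεV
  refine ⟨hmem, ?_⟩
  by_contra hinv
  have hnon : algebraMap QBar ↥(laurentBaseChange QBar F₀) γ + ε ∈
      P.toValuationSubring.nonunits := by
    rw [ValuationSubring.mem_nonunits_iff_or]
    exact Or.inr hinv
  have hγnon : algebraMap QBar ↥(laurentBaseChange QBar F₀) γ ∈
      P.toValuationSubring.nonunits := by
    have := P.toValuationSubring.nonunits.sub_mem hnon hε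
    simpa using this
  rw [ValuationSubring.mem_nonunits_iff_or] at hγnon
  rcases hγnon with h0 | h0
  · exact hγ ((algebraMap QBar ↥(laurentBaseChange QBar F₀)).injective
      (h0.trans (map_zero _).symm))
  · apply h0
    rw [← map_inv₀]
    exact P.algebraMap_mem' _

/-- **Key induction.**  `P`, `P'` over the same rational place of `F_{K₁}` with uniformiser
`τ` : every nonzero finite sum `∑ cᵢ bc (gᵢ)` is `bc τ ^ m` times a common unit of `P`, `P'`. -/
theorem pg_unit_rep (P P' : Place QBar ↥(laurentBaseChange QBar F₀))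
    (hVV : pgRes ι F₀ P = pgRes ι F₀ P')
    (hrat : ∀ z ∈ pgRes ι F₀ P, ∃ c : K₁,
      z - algebraMap K₁ ↥(laurentBaseChange K₁ F₀) c ∈ (pgRes ι F₀ P).nonunits)
    (τ : ↥(laurentBaseChange K₁ F₀)) (hτ0 : τ ≠ 0)
    (hτ : ∀ g : ↥(laurentBaseChange K₁ F₀), g ≠ 0 →
      ∃ n : ℤ, g * τ ^ n ∈ pgRes ι F₀ P ∧ (g * τ ^ n)⁻¹ ∈ pgRes ι F₀ P)
    (hτm : τ ∈ (pgRes ι F₀ P).nonunits) :
    ∀ (n : ℕ) (c : Fin n → QBar) (g : Fin n → ↥(laurentBaseChange K₁ F₀)),
      (∑ i, algebraMap QBar ↥(laurentBaseChange QBar F₀) (c i) * klBc ι F₀ (g i)) ≠ 0 →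
      ∃ (m : ℤ) (u : ↥(laurentBaseChange QBar F₀)),
        (∑ i, algebraMap QBar ↥(laurentBaseChange QBar F₀) (c i) * klBc ι F₀ (g i))
          = klBc ι F₀ τ ^ m * u ∧
        u ∈ P.toValuationSubring ∧ u⁻¹ ∈ P.toValuationSubring ∧
        u ∈ P'.toValuationSubring ∧ u⁻¹ ∈ P'.toValuationSubring := by
  classical
  have hinj : Function.Injective (klBc ι F₀) := (klBc ι F₀).injective
  have hbτ0 : klBc ι F₀ τ ≠ 0 := fun h0 => hτ0 (hinj (h0.trans (map_zero _).symm))
  intro n
  induction n with
  | zero =>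
    intro c g hne
    exact absurd (by simp) hne
  | succ n ih =>
    intro c g hne
    by_cases hz : ∃ i, g i = 0
    · -- drop a vanishing term
      obtain ⟨i, hi⟩ := hz
      have hsum : (∑ j, algebraMap QBar ↥(laurentBaseChange QBar F₀) (c j) * klBc ι F₀ (g j))
          = ∑ j : Fin n, algebraMap QBar ↥(laurentBaseChange QBar F₀) (c (i.succAbove j)) *
              klBc ι F₀ (g (i.succAbove j)) := by
        rw [Fin.sum_univ_succAbove _ i, hi, map_zero, mul_zero, zero_add]
      rw [hsum] at hne ⊢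
      exact ih _ _ hne
    · have hz' : ∀ i, g i ≠ 0 := fun i hi => hz ⟨i, hi⟩
      clear hz
      rename' hz' => hz
      -- the orders
      choose m hm using fun i => hτ (g i) (hz i)
      obtain ⟨i₀, -, hi₀⟩ := Finset.exists_max_image Finset.univ m ⟨0, Finset.mem_univ _⟩
      -- the normalised functions
      have huV : ∀ i, g i * τ ^ (m i₀) ∈ pgRes ι F₀ P := by
        intro i
        have h1 : g i * τ ^ (m i₀) = (g i * τ ^ (m i)) * τ ^ (m i₀ - m i) := by
          rw [mul_assoc, ← zpow_add₀ hτ0]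
          congr 2
          ring
        rw [h1]
        refine (pgRes ι F₀ P).mul_mem _ _ (hm i).1 ?_
        have h2 : 0 ≤ m i₀ - m i := sub_nonneg.mpr (hi₀ i (Finset.mem_univ _))
        obtain ⟨k, hk⟩ := Int.eq_ofNat_of_zero_le h2
        rw [hk, zpow_natCast]
        exact (pgRes ι F₀ P).pow_mem (ValuationSubring.nonunits_subset hτm) k
      choose a ha using fun i => hrat _ (huV i)
      have ha0 : a i₀ ≠ 0 := by
        intro h0
        have h1 := ha i₀
        rw [h0, map_zero, sub_zero, ValuationSubring.mem_nonunits_iff_or] at h1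
        rcases h1 with h1 | h1
        · exact mul_ne_zero (hz i₀) (zpow_ne_zero _ hτ0) h1
        · exact h1 (hm i₀).2
      set γ : QBar := ∑ i, c i * ι (a i) with hγ
      by_cases hγ0 : γ = 0
      · -- eliminate the term `i₀`
        have hc0 : c i₀ = -∑ j : Fin n, c (i₀.succAbove j) * ι (a (i₀.succAbove j) / a i₀) := by
          have h1 : c i₀ * ι (a i₀) + ∑ j : Fin n, c (i₀.succAbove j) * ι (a (i₀.succAbove j))
              = 0 := by
            rw [← Fin.sum_univ_succAbove (fun i => c i * ι (a i)) i₀]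
            exact hγ0
          have hιa : ι (a i₀) ≠ 0 := (map_ne_zero ι).mpr ha0
          have h2 : c i₀ = -(∑ j : Fin n, c (i₀.succAbove j) * ι (a (i₀.succAbove j)))
              / ι (a i₀) := by
            field_simp
            linear_combination h1
          rw [h2, neg_div, Finset.sum_div]
          congr 1
          refine Finset.sum_congr rfl fun j _ => ?_
          rw [map_div₀, mul_div_assoc]
        have hsum : (∑ j, algebraMap QBar ↥(laurentBaseChange QBar F₀) (c j) * klBc ι F₀ (g j))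
            = ∑ j : Fin n, algebraMap QBar ↥(laurentBaseChange QBar F₀) (c (i₀.succAbove j)) *
                klBc ι F₀ (g (i₀.succAbove j)
                  - algebraMap K₁ ↥(laurentBaseChange K₁ F₀) (a (i₀.succAbove j) / a i₀)
                    * g i₀) := by
          rw [Fin.sum_univ_succAbove _ i₀, hc0, map_neg, map_sum, neg_mul, Finset.sum_mul,
            ← Finset.sum_neg_distrib, ← Finset.sum_add_distrib]
          refine Finset.sum_congr rfl fun j _ => ?_
          rw [map_sub, map_mul (klBc ι F₀), Fermat.Agent.H73.KLDesc.klBc_algebraMap, map_mul]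
          ring
        rw [hsum] at hne ⊢
        exact ih _ _ hne
      · -- the leading constant is a unit
        set ε : ↥(laurentBaseChange QBar F₀) :=
          ∑ i, algebraMap QBar ↥(laurentBaseChange QBar F₀) (c i) *
            klBc ι F₀ (g i * τ ^ (m i₀) - algebraMap K₁ ↥(laurentBaseChange K₁ F₀) (a i))
          with hε
        have hεP : ∀ Q : Place QBar ↥(laurentBaseChange QBar F₀),
            pgRes ι F₀ P = pgRes ι F₀ Q → ε ∈ Q.toValuationSubring.nonunits := by
          intro Q hQ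
          rw [hε]
          refine Q.toValuationSubring.nonunits.sum_mem fun i _ => ?_
          have h1 : klBc ι F₀ (g i * τ ^ (m i₀) - algebraMap K₁ ↥(laurentBaseChange K₁ F₀)
              (a i)) ∈ Q.toValuationSubring.nonunits := by
            rw [← mem_pgRes_nonunits_iff, ← hQ]
            exact ha i
          rw [ValuationSubring.mem_nonunits_iff_exists_mem_maximalIdeal] at h1 ⊢
          obtain ⟨hmem, hmax⟩ := h1
          refine ⟨Q.toValuationSubring.mul_mem _ _ (Q.algebraMap_mem' _) hmem, ?_⟩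
          have := Ideal.mul_mem_left (IsLocalRing.maximalIdeal ↥Q.toValuationSubring)
            ⟨_, Q.algebraMap_mem' (c i)⟩ hmax
          exact this
        have hfu : (∑ j, algebraMap QBar ↥(laurentBaseChange QBar F₀) (c j) *
            klBc ι F₀ (g j)) * klBc ι F₀ τ ^ (m i₀)
            = algebraMap QBar ↥(laurentBaseChange QBar F₀) γ + ε := by
          rw [hε, hγ, map_sum, ← Finset.sum_add_distrib, Finset.sum_mul]
          refine Finset.sum_congr rfl fun i _ => ?_
          rw [map_sub, map_mul (klBc ι F₀), map_zpow₀,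
            Fermat.Agent.H73.KLDesc.klBc_algebraMap, map_mul]
          ring
        obtain ⟨h1, h2⟩ := pg_const_add_unit P γ hγ0 ε (hεP P rfl)
        obtain ⟨h3, h4⟩ := pg_const_add_unit P' γ hγ0 ε (hεP P' hVV)
        refine ⟨-(m i₀), algebraMap QBar ↥(laurentBaseChange QBar F₀) γ + ε, ?_, h1, h2, h3, h4⟩
        rw [← hfu, zpow_neg]
        field_simp

/-- **A rational place of `F_{K₁}` has exactly one place of `F_{ℚ̄}` above it.** -/
theorem place_eq_of_pgRes_eq (P P' : Place QBar ↥(laurentBaseChange QBar F₀))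
    (hVV : pgRes ι F₀ P = pgRes ι F₀ P')
    (hrat : ∀ z ∈ pgRes ι F₀ P, ∃ c : K₁,
      z - algebraMap K₁ ↥(laurentBaseChange K₁ F₀) c ∈ (pgRes ι F₀ P).nonunits) :
    P = P' := by
  have hinj : Function.Injective (klBc ι F₀) := (klBc ι F₀).injective
  obtain ⟨τ, hτpos, hdiv⟩ := exists_pgRes_gen ι F₀ P
  obtain ⟨hτ0, hτm, hτ, -⟩ := pgRes_dvr_of_gen ι F₀ P τ hτpos hdiv
  have hbτ0 : klBc ι F₀ τ ≠ 0 := fun h0 => hτ0 (hinj (h0.trans (map_zero _).symm))
  have hτm' : klBc ι F₀ τ ∈ P'.toValuationSubring.nonunits := by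
    rw [← mem_pgRes_nonunits_iff, ← hVV]
    exact hτm
  have hτpos' : 0 < P'.ord (klBc ι F₀ τ) := by
    rw [ValuationSubring.mem_nonunits_iff_exists_mem_maximalIdeal] at hτm'
    obtain ⟨hmem, hmax⟩ := hτm'
    rcases (Fermat.Agent.H23.mem_maximalIdeal_iff_ord P' _).1 hmax with h | h
    · exact absurd h hbτ0
    · exact h
  refine Fermat.Agent.H23.place_ext_of_ord P P' fun f hf => ?_
  rcases eq_or_ne f 0 with rfl | hf0
  · rw [Place.ord_zero]
  obtain ⟨n, c, g, hrep⟩ := exists_klBc_rep ι F₀ f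
  obtain ⟨m, u, hfu, hu1, hu2, hu3, hu4⟩ :=
    pg_unit_rep P P' hVV hrat τ hτ0 hτ hτm n c g (hrep ▸ hf0)
  rw [← hrep] at hfu
  have hu0 : u ≠ 0 := by
    rintro rfl
    rw [mul_zero] at hfu
    exact hf0 hfu
  have hordu : ∀ Q : Place QBar ↥(laurentBaseChange QBar F₀),
      u ∈ Q.toValuationSubring → u⁻¹ ∈ Q.toValuationSubring → Q.ord u = 0 := by
    intro Q h1 h2
    have h3 := Fermat.Agent.H23.ord_nonneg_of_mem Q h1
    have h4 := Fermat.Agent.H23.ord_nonneg_of_mem Q h2
    rw [Place.ord_inv] at h4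
    omega
  have e1 : P.ord f = m * P.ord (klBc ι F₀ τ) := by
    rw [hfu, Place.ord_mul _ (zpow_ne_zero _ hbτ0) hu0, Place.ord_zpow, hordu P hu1 hu2,
      add_zero]
  have e2 : P'.ord f = m * P'.ord (klBc ι F₀ τ) := by
    rw [hfu, Place.ord_mul _ (zpow_ne_zero _ hbτ0) hu0, Place.ord_zpow, hordu P' hu3 hu4,
      add_zero]
  rw [e1] at hf
  rw [e2]
  have hm : 0 ≤ m := by
    by_contra hneg
    have := mul_neg_of_neg_of_pos (not_le.mp hneg) hτpos
    omega
  exact mul_nonneg hm hτpos'.le

end Generic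

end Fermat.Agent.H67.ORD
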