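import Fermat.Agent.H67.ORD.NmValue
import Fermat.Agent.H67.ORD.PlaceUnique
import Fermat.Agent.H45.SS.LocalGen

/-!
# P-ORD, block B1 (descent dictionary, helper67) : charts and centres over a number field

`K₁` a field with `ι : K₁ → ℚ̄`, `A₀` a ring with fraction field `K₁` whose image lies in the
valuation subring `A` of `ℚ̄` (in the application `A₀ = A ∩ K₁`), `F_K = ModelField K₁ N`,
`F = FLb N`, `bc = klBc ι (modularFunctionFieldFull N)`, `P` a place of `F` whose restriction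
to `F_K` is `K₁`-rational.

* `bc_mem_nmChart` : `bc (chartClosure A₀ F_K y₁) ⊆ nmChart N A (bc y₁)`;
* `pgCentre` : the centre `{s ∈ B(y₁) | (bc s)(P) ∈ 𝔪_A}` of `P` on the `K₁`-chart, an ideal;
  `pgCentre_isMaximal`, `algebraMap_mem_pgCentre`;
* `centredAt_pgRes` : the restriction of a place `P'` with the same `ℚ̄`-centre as `P` is
  centred at `pgCentre`;
* `isRationalPlace_pgRes`;
* `nmPG_core` : place generators at the `ℚ̄`-level from `PlaceGenAt` at `pgCentre`.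
-/

set_option autoImplicit false
set_option linter.style.haveILetI false
set_option linter.unusedSectionVars false
set_option linter.unusedVariables false

noncomputable section

namespace Fermat.Agent.H67.ORD

open ModularCurve AlgebraicCurve
open Fermat.Agent.H72.FF Fermat.Agent.H84.ORD Fermat.Agent.H93.KL Fermat.Agent.H22.KL
open Fermat.Agent.H45

section Chart

variable {N : ℕ} [NeZero N] (A : ValuationSubring Qb) (P : Place Qb (FLb N))
variable {K₁ : Type} [Field K₁] [Algebra ℚ K₁] (ι : K₁ →+* QBar)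
variable (A₀ : Type) [CommRing A₀] [Algebra A₀ K₁]
  [Algebra A₀ (ModelField K₁ N)] [IsScalarTower A₀ K₁ (ModelField K₁ N)]

/-- the base change `F_K → F` -/
abbrev pgBc : ModelField K₁ N →+* FLb N := klBc ι (modularFunctionFieldFull N)

theorem pgBc_algebraMap (c : K₁) :
    pgBc (N := N) ι (algebraMap K₁ (ModelField K₁ N) c) = algebraMap Qb (FLb N) (ι c) :=
  Fermat.Agent.H73.KLDesc.klBc_algebraMap ι (modularFunctionFieldFull N) c

theorem pgBc_algebraMap₀ (a : A₀) :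
    pgBc (N := N) ι (algebraMap A₀ (ModelField K₁ N) a)
      = algebraMap Qb (FLb N) (ι (algebraMap A₀ K₁ a)) := by
  rw [IsScalarTower.algebraMap_apply A₀ K₁ (ModelField K₁ N), pgBc_algebraMap]

/-- **Chart descent** : `bc (B(y₁)) ⊆ B̄(bc y₁)`. -/
theorem bc_mem_nmChart (hA₀ : ∀ a : A₀, ι (algebraMap A₀ K₁ a) ∈ A)
    (y₁ s : ModelField K₁ N) (hs : s ∈ chartClosure A₀ (ModelField K₁ N) y₁) :
    pgBc ι s ∈ nmChart N A (pgBc ι y₁) := by
  have hs' : IsIntegral ↥(chartRing A₀ (ModelField K₁ N) y₁) s := hs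
  obtain ⟨q, hq, hqs⟩ := hs'
  have hmem : ∀ r : ↥(chartRing A₀ (ModelField K₁ N) y₁),
      pgBc ι (r : ModelField K₁ N) ∈ nmPoly N A (pgBc ι y₁) := by
    rintro ⟨r, hr⟩
    show pgBc ι r ∈ nmPoly N A (pgBc ι y₁)
    unfold chartRing at hr
    induction hr using Algebra.adjoin_induction with
    | mem z hz =>
      rw [Set.mem_singleton_iff] at hz
      rw [hz]
      exact mem_nmPoly_self A _
    | algebraMap a =>
      rw [pgBc_algebraMap₀]
      exact algebraMap_mem_nmPoly A _ (hA₀ a)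
    | add z w _ _ hz hw =>
      rw [map_add]
      exact (nmPoly N A (pgBc ι y₁)).add_mem hz hw
    | mul z w _ _ hz hw =>
      rw [map_mul]
      exact (nmPoly N A (pgBc ι y₁)).mul_mem hz hw
  let φ : ↥(chartRing A₀ (ModelField K₁ N) y₁) →+* ↥(nmPoly N A (pgBc ι y₁)) :=
    ((pgBc ι).comp (algebraMap ↥(chartRing A₀ (ModelField K₁ N) y₁)
      (ModelField K₁ N))).codRestrict (nmPoly N A (pgBc ι y₁)) hmem
  have hφ : (nmPoly N A (pgBc ι y₁)).subtype.comp φ
      = (pgBc ι).comp (algebraMap ↥(chartRing A₀ (ModelField K₁ N) y₁) (ModelField K₁ N)) :=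
    RingHom.ext fun _ => rfl
  rw [mem_nmChart_iff]
  refine ⟨q.map φ, hq.map φ, ?_⟩
  rw [Polynomial.eval₂_map, hφ, ← Polynomial.hom_eval₂, hqs, map_zero]

/-- values of descended functions at a rational place -/
theorem exists_hasValue_pgBc
    (hrat : ∀ z ∈ pgRes ι (modularFunctionFieldFull N) P, ∃ c : K₁,
      z - algebraMap K₁ (ModelField K₁ N) c ∈
        (pgRes ι (modularFunctionFieldFull N) P).nonunits)
    (g : ModelField K₁ N) (hg : pgBc ι g ∈ P.toValuationSubring) :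
    ∃ c : K₁, HasValue P (pgBc ι g) (ι c) := by
  obtain ⟨c, hc⟩ := hrat g hg
  refine ⟨c, ?_⟩
  rw [hasValue_iff, ← pgBc_algebraMap, ← map_sub]
  exact (mem_pgRes_nonunits_iff ι (modularFunctionFieldFull N) P _).1 hc

variable {A₀}

/-- `bc (B(y₁))` lies in the composite ring of `P`. -/
theorem pgBc_mem_nmInt (hA₀ : ∀ a : A₀, ι (algebraMap A₀ K₁ a) ∈ A)
    (y₁ : ModelField K₁ N) (hy : pgBc ι y₁ ∈ nmInt A P)
    (s : ↥(chartClosure A₀ (ModelField K₁ N) y₁)) :
    pgBc ι (s : ModelField K₁ N) ∈ nmInt A P :=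
  nmChart_le_nmInt A P _ hy _ (bc_mem_nmChart A ι A₀ hA₀ y₁ _ s.2)

/-- **The centre of `P` on the `K₁`-chart.** -/
def pgCentre (hA₀ : ∀ a : A₀, ι (algebraMap A₀ K₁ a) ∈ A)
    (y₁ : ModelField K₁ N) (hy : pgBc ι y₁ ∈ nmInt A P) :
    Ideal ↥(chartClosure A₀ (ModelField K₁ N) y₁) where
  carrier := {s | pgBc ι (s : ModelField K₁ N) ∈ nmMax A P}
  add_mem' := by
    rintro s s' ⟨c, hc, hs⟩ ⟨d, hd, hs'⟩
    refine ⟨c + d, A.nonunits.add_mem hc hd, ?_⟩
    have := hasValue_add P hs hs'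
    rw [← map_add] at this
    exact this
  zero_mem' := by
    refine ⟨0, ?_, ?_⟩
    · rw [ValuationSubring.mem_nonunits_iff_or]
      exact Or.inl rfl
    · have := hasValue_const P (0 : Qb)
      rw [map_zero] at this
      show HasValue P (pgBc ι ((0 : ↥(chartClosure A₀ (ModelField K₁ N) y₁)) :
        ModelField K₁ N)) 0
      rw [ZeroMemClass.coe_zero, map_zero]
      exact this
  smul_mem' := by
    rintro r s ⟨c, hc, hs⟩
    obtain ⟨d, hd, hr⟩ := pgBc_mem_nmInt A P ι hA₀ y₁ hy r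
    refine ⟨c * d, vs_nonunits_mul_mem A hc hd, ?_⟩
    have := hasValue_mul P hs hr
    rw [← map_mul] at this
    show HasValue P (pgBc ι ((r * s : ↥(chartClosure A₀ (ModelField K₁ N) y₁)) :
      ModelField K₁ N)) (c * d)
    rw [MulMemClass.coe_mul, mul_comm]
    exact this

theorem mem_pgCentre_iff (hA₀ : ∀ a : A₀, ι (algebraMap A₀ K₁ a) ∈ A)
    (y₁ : ModelField K₁ N) (hy : pgBc ι y₁ ∈ nmInt A P)
    (s : ↥(chartClosure A₀ (ModelField K₁ N) y₁)) :
    s ∈ pgCentre A P ι hA₀ y₁ hy ↔ pgBc ι (s : ModelField K₁ N) ∈ nmMax A P := Iff.rfl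

theorem algebraMap_mem_pgCentre (hA₀ : ∀ a : A₀, ι (algebraMap A₀ K₁ a) ∈ A)
    (y₁ : ModelField K₁ N) (hy : pgBc ι y₁ ∈ nmInt A P)
    (ϖ : A₀) (hϖ : ι (algebraMap A₀ K₁ ϖ) ∈ A.nonunits) :
    algebraMap A₀ ↥(chartClosure A₀ (ModelField K₁ N) y₁) ϖ ∈ pgCentre A P ι hA₀ y₁ hy := by
  rw [mem_pgCentre_iff]
  refine ⟨_, hϖ, ?_⟩
  have e : ((algebraMap A₀ ↥(chartClosure A₀ (ModelField K₁ N) y₁) ϖ :
      ↥(chartClosure A₀ (ModelField K₁ N) y₁)) : ModelField K₁ N)
      = algebraMap A₀ (ModelField K₁ N) ϖ := rfl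
  rw [e, pgBc_algebraMap₀]
  exact hasValue_const P _

theorem pgCentre_isMaximal (hA₀ : ∀ a : A₀, ι (algebraMap A₀ K₁ a) ∈ A)
    (hA₀' : ∀ c : K₁, ι c ∈ A → ∃ a : A₀, algebraMap A₀ K₁ a = c)
    (hrat : ∀ z ∈ pgRes ι (modularFunctionFieldFull N) P, ∃ c : K₁,
      z - algebraMap K₁ (ModelField K₁ N) c ∈
        (pgRes ι (modularFunctionFieldFull N) P).nonunits)
    (y₁ : ModelField K₁ N) (hy : pgBc ι y₁ ∈ nmInt A P) :
    (pgCentre A P ι hA₀ y₁ hy).IsMaximal := by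
  rw [Ideal.isMaximal_iff]
  constructor
  · intro h1
    rw [mem_pgCentre_iff] at h1
    obtain ⟨c, hc, hv⟩ := h1
    have e : pgBc ι ((1 : ↥(chartClosure A₀ (ModelField K₁ N) y₁)) : ModelField K₁ N)
        = algebraMap Qb (FLb N) 1 := by
      rw [OneMemClass.coe_one, map_one, map_one]
    rw [e] at hv
    have hc1 : (1 : Qb) = c := hasValue_unique P (hasValue_const P 1) hv
    rw [← hc1] at hc
    exact vs_one_not_mem_nonunits A hc
  · intro J x hIJ hxI hxJ
    obtain ⟨d, hd, hxv⟩ := pgBc_mem_nmInt A P ι hA₀ y₁ hy x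
    obtain ⟨c₁, hc₁⟩ := exists_hasValue_pgBc P ι hrat (x : ModelField K₁ N)
      (mem_of_hasValue P hxv)
    have hdc : d = ι c₁ := hasValue_unique P hxv hc₁
    have hdn : d ∉ A.nonunits := fun h => hxI ⟨d, h, hxv⟩
    rw [ValuationSubring.mem_nonunits_iff_or] at hdn
    have hd0 : d ≠ 0 := fun h => hdn (Or.inl h)
    have hdi : d⁻¹ ∈ A := by
      by_contra h
      exact hdn (Or.inr h)
    have hc₁i : ι c₁⁻¹ ∈ A := by rw [map_inv₀, ← hdc]; exact hdi
    obtain ⟨a', ha'⟩ := hA₀' _ hc₁i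
    set r : ↥(chartClosure A₀ (ModelField K₁ N) y₁) :=
      algebraMap A₀ ↥(chartClosure A₀ (ModelField K₁ N) y₁) a' with hr
    have hrv : HasValue P (pgBc ι (r : ModelField K₁ N)) d⁻¹ := by
      have e : (r : ModelField K₁ N) = algebraMap A₀ (ModelField K₁ N) a' := rfl
      rw [e, pgBc_algebraMap₀, ha', map_inv₀, ← hdc]
      exact hasValue_const P _
    have hmem : r * x - 1 ∈ pgCentre A P ι hA₀ y₁ hy := by
      rw [mem_pgCentre_iff]
      refine ⟨0, ?_, ?_⟩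
      · rw [ValuationSubring.mem_nonunits_iff_or]
        exact Or.inl rfl
      · have h1 := hasValue_sub P (hasValue_mul P hrv hxv) (hasValue_const P 1)
        rw [inv_mul_cancel₀ hd0, sub_self, map_one] at h1
        have e : pgBc ι ((r * x - 1 : ↥(chartClosure A₀ (ModelField K₁ N) y₁)) :
            ModelField K₁ N)
            = pgBc ι (r : ModelField K₁ N) * pgBc ι (x : ModelField K₁ N) - 1 := by
          rw [AddSubgroupClass.coe_sub, MulMemClass.coe_mul, OneMemClass.coe_one, map_sub,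
            map_mul, map_one]
        rw [e]
        exact h1
    have h1 : (1 : ↥(chartClosure A₀ (ModelField K₁ N) y₁)) = r * x - (r * x - 1) := by ring
    rw [h1]
    exact J.sub_mem (J.mul_mem_left r hxJ) (hIJ hmem)

/-- The restriction of a place with the same `ℚ̄`-centre is centred at `pgCentre`. -/
theorem centredAt_pgRes (hA₀ : ∀ a : A₀, ι (algebraMap A₀ K₁ a) ∈ A)
    (y₁ : ModelField K₁ N) (hyY : pgBc ι y₁ = nmY A P)
    (P' : Place Qb (FLb N)) (hcen : nmCentre A P' = nmCentre A P) :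
    CentredAt A₀ (ModelField K₁ N) y₁
      (pgCentre A P ι hA₀ y₁ (hyY ▸ nmY_mem_nmInt A P))
      (pgRes ι (modularFunctionFieldFull N) P') := by
  have hYY : nmY A P' = nmY A P := nmY_eq_of_centre_eq A P P' hcen
  refine ⟨⟨⟨pgRes_ne_top ι _ P', ?_, fun a ha => ?_⟩, ?_⟩, fun s hs => ?_⟩
  · haveI := pgRes_isDiscreteValuationRing ι (modularFunctionFieldFull N) P'
    infer_instance
  · rw [IsScalarTower.algebraMap_apply A₀ K₁ (ModelField K₁ N), ← map_inv₀]
    exact ⟨algebraMap_mem_pgRes ι _ P' _, algebraMap_mem_pgRes ι _ P' _⟩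
  · rw [mem_pgRes_iff]
    show pgBc ι y₁ ∈ P'.toValuationSubring
    rw [hyY, ← hYY]
    obtain ⟨c, -, hc⟩ := nmY_mem_nmInt A P'
    exact mem_of_hasValue P' hc
  · rw [mem_pgCentre_iff]
    have h1 : pgBc ι (s : ModelField K₁ N) ∈ P'.toValuationSubring.nonunits :=
      (mem_pgRes_nonunits_iff ι _ P' _).1 hs
    have h2 : pgBc ι (s : ModelField K₁ N) ∈ nmCentre A P' := by
      refine ⟨?_, 0, ?_, ?_⟩
      · rw [hYY, ← hyY]
        exact bc_mem_nmChart A ι A₀ hA₀ y₁ _ s.2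
      · rw [ValuationSubring.mem_nonunits_iff_or]
        exact Or.inl rfl
      · rw [hasValue_iff, map_zero, sub_zero]
        exact h1
    rw [hcen] at h2
    exact h2.2

theorem isRationalPlace_pgRes [IsDomain A₀] [IsFractionRing A₀ K₁]
    (hrat : ∀ z ∈ pgRes ι (modularFunctionFieldFull N) P, ∃ c : K₁,
      z - algebraMap K₁ (ModelField K₁ N) c ∈
        (pgRes ι (modularFunctionFieldFull N) P).nonunits) :
    IsRationalPlace A₀ (ModelField K₁ N) (pgRes ι (modularFunctionFieldFull N) P) := by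
  intro z hz
  obtain ⟨c, hc⟩ := hrat z hz
  obtain ⟨a, b, hb, hab⟩ := IsFractionRing.div_surjective (A := A₀) c
  refine ⟨a, b, nonZeroDivisors.ne_zero hb, ?_⟩
  rw [IsScalarTower.algebraMap_apply A₀ K₁ (ModelField K₁ N),
    IsScalarTower.algebraMap_apply A₀ K₁ (ModelField K₁ N) b, ← map_div₀, hab]
  exact hc

/-- **Place generators at the `ℚ̄`-level from the model.** -/
theorem nmPG_core [IsDomain A₀] [IsFractionRing A₀ K₁]
    (hA₀ : ∀ a : A₀, ι (algebraMap A₀ K₁ a) ∈ A)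
    (hA₀' : ∀ c : K₁, ι c ∈ A → ∃ a : A₀, algebraMap A₀ K₁ a = c)
    (ϖ : A₀) (hϖ : ι (algebraMap A₀ K₁ ϖ) ∈ A.nonunits)
    (hrat : ∀ z ∈ pgRes ι (modularFunctionFieldFull N) P, ∃ c : K₁,
      z - algebraMap K₁ (ModelField K₁ N) c ∈
        (pgRes ι (modularFunctionFieldFull N) P).nonunits)
    (y₁ : ModelField K₁ N) (hyY : pgBc ι y₁ = nmY A P)
    (hPG : ∀ 𝔪 : Ideal ↥(chartClosure A₀ (ModelField K₁ N) y₁), 𝔪.IsMaximal →
      algebraMap A₀ ↥(chartClosure A₀ (ModelField K₁ N) y₁) ϖ ∈ 𝔪 →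
      PlaceGenAt A₀ (ModelField K₁ N) y₁ 𝔪)
    (τ : ModelField K₁ N) (hτ : P.ord (pgBc ι τ) = 1) :
    ∃ t : FLb N, P.ord t = 1 ∧
      ∀ P' : Place Qb (FLb N), nmCentre A P' = nmCentre A P → P' ≠ P → P'.ord t = 0 := by
  have hinj : Function.Injective (pgBc (N := N) ι) := (pgBc ι).injective
  have hy : pgBc ι y₁ ∈ nmInt A P := hyY ▸ nmY_mem_nmInt A P
  obtain ⟨t₁, ⟨ht0, htm, htdiv⟩, hother⟩ :=
    hPG (pgCentre A P ι hA₀ y₁ hy) (pgCentre_isMaximal A P ι hA₀ hA₀' hrat y₁ hy)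
      (algebraMap_mem_pgCentre A P ι hA₀ y₁ hy ϖ hϖ)
      (pgRes ι (modularFunctionFieldFull N) P) (centredAt_pgRes A P ι hA₀ y₁ hyY P rfl)
      (isRationalPlace_pgRes P ι hrat)
  have hbt0 : pgBc ι t₁ ≠ 0 := fun h0 => ht0 (hinj (h0.trans (map_zero _).symm))
  have hτ0 : pgBc ι τ ≠ 0 := by
    intro h0
    rw [h0, Place.ord_zero] at hτ
    exact zero_ne_one hτ
  refine ⟨pgBc ι t₁, ?_, fun P' hcen hne => ?_⟩
  · -- `ord_P (bc t₁) = 1`
    have h1 : 0 < P.ord (pgBc ι t₁) := by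
      have h2 := (mem_pgRes_nonunits_iff ι _ P _).1 htm
      rw [ValuationSubring.mem_nonunits_iff_exists_mem_maximalIdeal] at h2
      obtain ⟨hmem, hmax⟩ := h2
      rcases (Fermat.Agent.H23.mem_maximalIdeal_iff_ord P _).1 hmax with h | h
      · exact absurd h hbt0
      · exact h
    have hτm : τ ∈ (pgRes ι (modularFunctionFieldFull N) P).nonunits := by
      rw [mem_pgRes_nonunits_iff, ValuationSubring.mem_nonunits_iff_exists_mem_maximalIdeal]
      have hmem : pgBc ι τ ∈ P.toValuationSubring :=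
        Fermat.Agent.H23.mem_of_ord_nonneg P (by rw [hτ]; exact zero_le_one)
      exact ⟨hmem, (Fermat.Agent.H23.mem_maximalIdeal_iff_ord P ⟨_, hmem⟩).2
        (Or.inr (by show 0 < P.ord (pgBc ι τ); rw [hτ]; exact one_pos))⟩
    have h3 := Fermat.Agent.H23.ord_nonneg_of_mem P
      ((mem_pgRes_iff ι _ P _).1 (htdiv τ hτm))
    rw [map_div₀, div_eq_mul_inv, Place.ord_mul _ hτ0 (inv_ne_zero hbt0), Place.ord_inv,
      hτ] at h3
    omega
  · -- unit at the other places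
    have hV : pgRes ι (modularFunctionFieldFull N) P' ≠ pgRes ι (modularFunctionFieldFull N) P := by
      intro hVV
      exact hne (place_eq_of_pgRes_eq P P' hVV.symm hrat).symm
    obtain ⟨h1, h2⟩ := hother (pgRes ι (modularFunctionFieldFull N) P')
      (centredAt_pgRes A P ι hA₀ y₁ hyY P' hcen) hV
    have h3 : 0 ≤ P'.ord (pgBc ι t₁) :=
      Fermat.Agent.H23.ord_nonneg_of_mem P' ((mem_pgRes_iff ι _ P' _).1 h1)
    have h4 : 0 ≤ P'.ord (pgBc ι t₁⁻¹) :=
      Fermat.Agent.H23.ord_nonneg_of_mem P' ((mem_pgRes_iff ι _ P' _).1 h2)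
    rw [map_inv₀, Place.ord_inv] at h4
    omega

end Chart

end Fermat.Agent.H67.ORD
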