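import Fermat.Agent.H84.ORD.NodalModel
import Fermat.Agent.H70.SS.RatPlaceModular

/-!
# P-ORD, block B1 (descent dictionary, helper67) : values at a place and the composite ring

`F = FLb N = ℚ̄(X₀(N))`, `P` a place of `F`, `A` a valuation subring of `ℚ̄`.

* `hasValue_iff` : `f(P) = c` iff `f - c ∈ 𝔪_P`; arithmetic of values (`hasValue_add`,
  `hasValue_mul`, `hasValue_inv`, `hasValue_unique`, `exists_hasValue`);
* `nmComp A P : ValuationSubring F` : the composite valuation ring `{f | f(P) ∈ A}` (carrier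
  `nmInt A P`);
* `nmChart_le_nmInt` : the chart `B̄(y)` is contained in `{f | f(P) ∈ A}` as soon as
  `y(P) ∈ A`;
* `nmY_mem_nmInt` : the chart of `P` is finite at `P`;
* `nmY_eq_of_centre_eq` : places with the same centre have the same chart.
-/

set_option autoImplicit false
set_option linter.style.haveILetI false
set_option linter.unusedSectionVars false

noncomputable section

namespace Fermat.Agent.H67.ORD

open ModularCurve AlgebraicCurve
open Fermat.Agent.H72.FF Fermat.Agent.H84.ORD

theorem vs_nonunits_mul_mem {E : Type*} [Field E] (V : ValuationSubring E) {a b : E}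
    (ha : a ∈ V.nonunits) (hb : b ∈ V) : a * b ∈ V.nonunits := by
  rw [ValuationSubring.mem_nonunits_iff_exists_mem_maximalIdeal] at ha ⊢
  obtain ⟨hmem, hmax⟩ := ha
  refine ⟨V.mul_mem _ _ hmem hb, ?_⟩
  exact Ideal.mul_mem_right (⟨b, hb⟩ : ↥V) _ hmax

theorem vs_one_not_mem_nonunits {E : Type*} [Field E] (V : ValuationSubring E) :
    (1 : E) ∉ V.nonunits := by
  rw [ValuationSubring.mem_nonunits_iff_or]
  rintro (h | h)
  · exact one_ne_zero h
  · exact h (by rw [inv_one]; exact V.one_mem)

theorem vs_sub_mem_of_nonunits {E : Type*} [Field E] (V : ValuationSubring E) {a c : E}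
    (ha : a - c ∈ V.nonunits) (hc : c ∈ V) : a ∈ V := by
  have h1 := ValuationSubring.nonunits_subset ha
  have h2 := V.add_mem _ _ h1 hc
  rwa [sub_add_cancel] at h2

section Value

variable {N : ℕ} (P : Place Qb (FLb N))

theorem hasValue_iff (f : FLb N) (c : Qb) :
    HasValue P f c ↔ f - algebraMap Qb (FLb N) c ∈ P.toValuationSubring.nonunits := by
  rw [ValuationSubring.mem_nonunits_iff_exists_mem_maximalIdeal]
  constructor
  · rintro (h | h)
    · rw [h, sub_self]
      exact ⟨P.toValuationSubring.zero_mem, Ideal.zero_mem _⟩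
    · have hmem : f - algebraMap Qb (FLb N) c ∈ P.toValuationSubring :=
        Fermat.Agent.H23.mem_of_ord_nonneg P (by omega)
      exact ⟨hmem, (Fermat.Agent.H23.mem_maximalIdeal_iff_ord P ⟨_, hmem⟩).2 (Or.inr (by
        show 0 < P.ord (f - algebraMap Qb (FLb N) c)
        omega))⟩
  · rintro ⟨hmem, hmax⟩
    rcases (Fermat.Agent.H23.mem_maximalIdeal_iff_ord P ⟨_, hmem⟩).1 hmax with h | h
    · exact Or.inl (sub_eq_zero.mp h)
    · refine Or.inr ?_
      have h' : 0 < P.ord (f - algebraMap Qb (FLb N) c) := h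
      omega

theorem hasValue_const (c : Qb) : HasValue P (algebraMap Qb (FLb N) c) c := Or.inl rfl

theorem hasValue_add {f g : FLb N} {c d : Qb} (hf : HasValue P f c) (hg : HasValue P g d) :
    HasValue P (f + g) (c + d) := by
  rw [hasValue_iff] at hf hg ⊢
  have := P.toValuationSubring.nonunits.add_mem hf hg
  have e : f + g - algebraMap Qb (FLb N) (c + d)
      = (f - algebraMap Qb (FLb N) c) + (g - algebraMap Qb (FLb N) d) := by
    rw [map_add]; ring
  rw [e]
  exact this

theorem hasValue_neg {f : FLb N} {c : Qb} (hf : HasValue P f c) : HasValue P (-f) (-c) := by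
  rw [hasValue_iff] at hf ⊢
  have := P.toValuationSubring.nonunits.neg_mem hf
  have e : -f - algebraMap Qb (FLb N) (-c) = -(f - algebraMap Qb (FLb N) c) := by
    rw [map_neg]; ring
  rw [e]
  exact this

theorem hasValue_sub {f g : FLb N} {c d : Qb} (hf : HasValue P f c) (hg : HasValue P g d) :
    HasValue P (f - g) (c - d) := by
  rw [sub_eq_add_neg, sub_eq_add_neg]
  exact hasValue_add P hf (hasValue_neg P hg)

theorem mem_of_hasValue {f : FLb N} {c : Qb} (hf : HasValue P f c) :
    f ∈ P.toValuationSubring := by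
  rw [hasValue_iff] at hf
  exact vs_sub_mem_of_nonunits P.toValuationSubring hf (P.algebraMap_mem' c)

/-- `𝔪_P` is an ideal of `O_P`. -/
theorem nonunits_mul_mem {a b : FLb N} (ha : a ∈ P.toValuationSubring.nonunits)
    (hb : b ∈ P.toValuationSubring) : a * b ∈ P.toValuationSubring.nonunits :=
  vs_nonunits_mul_mem P.toValuationSubring ha hb

theorem hasValue_mul {f g : FLb N} {c d : Qb} (hf : HasValue P f c) (hg : HasValue P g d) :
    HasValue P (f * g) (c * d) := by
  have hgV := mem_of_hasValue P hg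
  rw [hasValue_iff] at hf hg ⊢
  have h1 := nonunits_mul_mem P hf hgV
  have h2 := nonunits_mul_mem P hg (P.algebraMap_mem' c)
  have := P.toValuationSubring.nonunits.add_mem h1 h2
  have e : f * g - algebraMap Qb (FLb N) (c * d)
      = (f - algebraMap Qb (FLb N) c) * g
        + (g - algebraMap Qb (FLb N) d) * algebraMap Qb (FLb N) c := by
    rw [map_mul]; ring
  rw [e]
  exact this

/-- a constant in `𝔪_P` vanishes -/
theorem const_eq_zero_of_mem_nonunits {c : Qb}
    (h : algebraMap Qb (FLb N) c ∈ P.toValuationSubring.nonunits) : c = 0 := by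
  by_contra hc
  rw [ValuationSubring.mem_nonunits_iff_or] at h
  rcases h with h | h
  · exact hc ((algebraMap Qb (FLb N)).injective (h.trans (map_zero _).symm))
  · apply h
    rw [← map_inv₀]
    exact P.algebraMap_mem' _

theorem hasValue_unique {f : FLb N} {c d : Qb} (hc : HasValue P f c) (hd : HasValue P f d) :
    c = d := by
  rw [hasValue_iff] at hc hd
  have h := P.toValuationSubring.nonunits.sub_mem hd hc
  have e : f - algebraMap Qb (FLb N) d - (f - algebraMap Qb (FLb N) c)
      = algebraMap Qb (FLb N) (c - d) := by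
    rw [map_sub]; ring
  rw [e] at h
  exact sub_eq_zero.mp (const_eq_zero_of_mem_nonunits P h)

theorem hasValue_inv {f : FLb N} {c : Qb} (hf : HasValue P f c) (hc : c ≠ 0) :
    HasValue P f⁻¹ c⁻¹ := by
  have hfV := mem_of_hasValue P hf
  have hf0 : f ≠ 0 := by
    rintro rfl
    exact hc (hasValue_unique P hf (by simpa using hasValue_const P (0 : Qb)))
  -- `f` is a unit of `O_P`
  have hfi : f⁻¹ ∈ P.toValuationSubring := by
    by_contra hinv
    have hnon : f ∈ P.toValuationSubring.nonunits := by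
      rw [ValuationSubring.mem_nonunits_iff_or]
      exact Or.inr hinv
    have h0 : HasValue P f 0 := by
      rw [hasValue_iff, map_zero, sub_zero]
      exact hnon
    exact hc (hasValue_unique P hf h0)
  rw [hasValue_iff] at hf ⊢
  have hc' : algebraMap Qb (FLb N) c ≠ 0 := fun h =>
    hc ((algebraMap Qb (FLb N)).injective (h.trans (map_zero _).symm))
  have h1 := nonunits_mul_mem P (nonunits_mul_mem P hf hfi) (P.algebraMap_mem' c⁻¹)
  have h2 := P.toValuationSubring.nonunits.neg_mem h1
  have e : f⁻¹ - algebraMap Qb (FLb N) c⁻¹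
      = -((f - algebraMap Qb (FLb N) c) * f⁻¹ * algebraMap Qb (FLb N) c⁻¹) := by
    rw [map_inv₀]
    field_simp
    ring
  rw [e]
  exact h2

variable [NeZero N]

theorem exists_hasValue {f : FLb N} (hf : f ∈ P.toValuationSubring) :
    ∃ c : Qb, HasValue P f c := by
  have hdeg : P.deg = 1 := Fermat.Agent.H70.SS.ss_deg_eq_one_bar N P
  obtain ⟨c, hc⟩ := Fermat.Agent.H23.exists_const_ord_sub_pos P hdeg
    ((Fermat.Agent.H23.mem_iff_ord P).1 hf)
  refine ⟨c, ?_⟩
  rcases hc with h | h
  · exact Or.inl h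
  · exact Or.inr (by omega)

end Value

section Comp

variable {N : ℕ} [NeZero N] (A : ValuationSubring Qb) (P : Place Qb (FLb N))

/-- **The composite valuation ring** `{f | f(P) ∈ A}`. -/
def nmComp : ValuationSubring (FLb N) where
  carrier := nmInt A P
  mul_mem' := by
    rintro f g ⟨c, hc, hf⟩ ⟨d, hd, hg⟩
    exact ⟨c * d, A.mul_mem _ _ hc hd, hasValue_mul P hf hg⟩
  one_mem' := ⟨1, A.one_mem, by simpa using hasValue_const P (1 : Qb)⟩
  add_mem' := by
    rintro f g ⟨c, hc, hf⟩ ⟨d, hd, hg⟩
    exact ⟨c + d, A.add_mem _ _ hc hd, hasValue_add P hf hg⟩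
  zero_mem' := ⟨0, A.zero_mem, by simpa using hasValue_const P (0 : Qb)⟩
  neg_mem' := by
    rintro f ⟨c, hc, hf⟩
    exact ⟨-c, A.neg_mem _ hc, hasValue_neg P hf⟩
  mem_or_inv_mem' := by
    intro f
    by_cases hfV : f ∈ P.toValuationSubring
    · obtain ⟨c, hc⟩ := exists_hasValue P hfV
      by_cases hcA : c ∈ A
      · exact Or.inl ⟨c, hcA, hc⟩
      · have hc0 : c ≠ 0 := fun h => hcA (h ▸ A.zero_mem)
        exact Or.inr ⟨c⁻¹, (A.mem_or_inv_mem c).resolve_left hcA, hasValue_inv P hc hc0⟩
    · refine Or.inr ⟨0, A.zero_mem, ?_⟩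
      rw [hasValue_iff, map_zero, sub_zero, ValuationSubring.mem_nonunits_iff_or, inv_inv]
      exact Or.inr hfV

theorem mem_nmComp_iff (f : FLb N) : f ∈ nmComp A P ↔ f ∈ nmInt A P := Iff.rfl

/-- The chart `B̄(y)` lies in the composite ring of `P` as soon as `y(P) ∈ A`. -/
theorem nmChart_le_nmInt (y : FLb N) (hy : y ∈ nmInt A P) (f : FLb N)
    (hf : f ∈ nmChart N A y) : f ∈ nmInt A P := by
  rw [mem_nmChart_iff] at hf
  obtain ⟨q, hq, hqf⟩ := hf
  have hle : nmPoly N A y ≤ (nmComp A P).toSubring := by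
    unfold nmPoly
    rw [Subring.closure_le]
    rintro z (⟨c, hc, rfl⟩ | hz)
    · exact ⟨c, hc, hasValue_const P c⟩
    · rw [Set.mem_singleton_iff] at hz
      rw [hz]
      exact hy
  let φ : ↥(nmPoly N A y) →+* ↥(nmComp A P) := Subring.inclusion hle
  have hφ : (algebraMap ↥(nmComp A P) (FLb N)).comp φ = (nmPoly N A y).subtype :=
    RingHom.ext fun _ => rfl
  have hint : IsIntegral ↥(nmComp A P) f := by
    refine ⟨q.map φ, hq.map φ, ?_⟩
    rw [Polynomial.eval₂_map, hφ]
    exact hqf
  obtain ⟨z, hz⟩ := IsIntegrallyClosed.algebraMap_eq_of_integral hint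
  rw [← hz]
  exact z.2

/-- The chart of `P` is finite at `P` : `y(P) ∈ A`. -/
theorem nmY_mem_nmInt : nmY A P ∈ nmInt A P := by
  classical
  unfold nmY
  split_ifs with h
  · exact h
  · exact ((nmComp A P).mem_or_inv_mem (nmJ N)).resolve_left h

theorem nmY_eq_or : nmY A P = nmJ N ∨ nmY A P = (nmJ N)⁻¹ := by
  classical
  unfold nmY
  split_ifs with h
  · exact Or.inl rfl
  · exact Or.inr rfl

theorem nmY_eq_j_iff : nmY A P = nmJ N ↔ nmJ N ∈ nmInt A P := by
  classical
  constructor
  · intro h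
    rw [← h]
    exact nmY_mem_nmInt A P
  · intro h
    unfold nmY
    rw [if_pos h]

theorem mem_nmPoly_self (y : FLb N) : y ∈ nmPoly N A y :=
  Subring.subset_closure (Or.inr rfl)

theorem algebraMap_mem_nmPoly (y : FLb N) {c : Qb} (hc : c ∈ A) :
    algebraMap Qb (FLb N) c ∈ nmPoly N A y :=
  Subring.subset_closure (Or.inl ⟨c, hc, rfl⟩)

theorem nmPoly_le_nmChart (y : FLb N) {f : FLb N} (hf : f ∈ nmPoly N A y) :
    f ∈ nmChart N A y := by
  rw [mem_nmChart_iff]
  exact RingHom.isIntegralElem_map (nmPoly N A y).subtype (x := ⟨f, hf⟩)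

/-- Places with the same centre have the same chart. -/
theorem nmY_eq_of_centre_eq (P' : Place Qb (FLb N))
    (h : nmCentre A P' = nmCentre A P) : nmY A P' = nmY A P := by
  have key : ∀ Q Q' : Place Qb (FLb N), nmCentre A Q = nmCentre A Q' →
      nmJ N ∈ nmInt A Q → nmJ N ∈ nmInt A Q' := by
    intro Q Q' hQ hj
    obtain ⟨c, hc, hv⟩ := hj
    have hY : nmY A Q = nmJ N := (nmY_eq_j_iff A Q).2 ⟨c, hc, hv⟩
    have hmem : nmJ N - algebraMap Qb (FLb N) c ∈ nmCentre A Q := by
      refine ⟨?_, 0, ?_, ?_⟩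
      · rw [hY]
        exact nmPoly_le_nmChart A _
          ((nmPoly N A (nmJ N)).sub_mem (mem_nmPoly_self A _) (algebraMap_mem_nmPoly A _ hc))
      · rw [ValuationSubring.mem_nonunits_iff_or]
        exact Or.inl rfl
      · have := hasValue_sub Q hv (hasValue_const Q c)
        simpa using this
    rw [hQ] at hmem
    obtain ⟨-, d, hd, hv'⟩ := hmem
    have := hasValue_add Q' hv' (hasValue_const Q' c)
    rw [sub_add_cancel] at this
    exact ⟨d + c, A.add_mem _ _ (ValuationSubring.nonunits_subset hd) hc, this⟩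
  rcases nmY_eq_or A P with hP | hP
  · rw [hP]
    exact (nmY_eq_j_iff A P').2 (key P P' h.symm ((nmY_eq_j_iff A P).1 hP))
  · rcases nmY_eq_or A P' with hP' | hP'
    · have := (nmY_eq_j_iff A P).2 (key P' P h ((nmY_eq_j_iff A P').1 hP'))
      rw [hP', this]
    · rw [hP, hP']

end Comp

end Fermat.Agent.H67.ORD
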