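import Fermat.Agent.H70.SS.RatPlace

/-!
# P-ORD, block B1 (descent dictionary, helper67) : restriction of places along `klBc`

Generic in the level field `F₀ : IntermediateField ℚ (LaurentSeries ℚ)`; `F_K = laurentBaseChange
K₁ F₀`, `F = laurentBaseChange ℚ̄ F₀`, `bc = klBc ι F₀ : F_K → F`.

* `pgRes ι F₀ P` : the restriction `O_P ∩ F_K` of the valuation ring of a place `P` of `F`;
* `klBc_isIntegralElem` : `F` is integral over `bc (F_K)`;
* `pgRes_ne_top`, `exists_pgRes_gen`, `pgRes_dvr_of_gen`, `pgRes_isPrincipalIdealRing` :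
  the restriction is a discrete valuation ring of `F_K` (for EVERY field `K₁`);
* `pgPlace ι F₀ P : Place K₁ F_K` : the restricted place;
* `exists_klBc_rep` : every element of `F` is a finite sum `∑ cᵢ bc (gᵢ)`, `cᵢ ∈ ℚ̄`;
* `place_eq_of_pgRes_eq` : a `K₁`-RATIONAL place of `F_K` has exactly one place of `F` above it.
-/

set_option autoImplicit false
set_option linter.style.haveILetI false
set_option linter.unusedSectionVars false

noncomputable section

namespace Fermat.Agent.H67.ORD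

open ModularCurve AlgebraicCurve Fermat.Agent.H93.KL

section Generic

variable {K₁ : Type} [Field K₁] [Algebra ℚ K₁] (ι : K₁ →+* QBar)
  (F₀ : IntermediateField ℚ (LaurentSeries ℚ))

/-- The restriction of the valuation ring of a place of `F_{ℚ̄}` to `F_{K₁}`. -/
def pgRes (P : Place QBar ↥(laurentBaseChange QBar F₀)) :
    ValuationSubring ↥(laurentBaseChange K₁ F₀) :=
  P.toValuationSubring.comap (klBc ι F₀)

theorem mem_pgRes_iff (P : Place QBar ↥(laurentBaseChange QBar F₀))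
    (g : ↥(laurentBaseChange K₁ F₀)) :
    g ∈ pgRes ι F₀ P ↔ klBc ι F₀ g ∈ P.toValuationSubring := Iff.rfl

theorem mem_pgRes_nonunits_iff (P : Place QBar ↥(laurentBaseChange QBar F₀))
    (g : ↥(laurentBaseChange K₁ F₀)) :
    g ∈ (pgRes ι F₀ P).nonunits ↔ klBc ι F₀ g ∈ P.toValuationSubring.nonunits := by
  rw [ValuationSubring.mem_nonunits_iff_or, ValuationSubring.mem_nonunits_iff_or, mem_pgRes_iff,
    map_inv₀, map_eq_zero]

theorem algebraMap_mem_pgRes (P : Place QBar ↥(laurentBaseChange QBar F₀)) (a : K₁) :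
    algebraMap K₁ ↥(laurentBaseChange K₁ F₀) a ∈ pgRes ι F₀ P := by
  rw [mem_pgRes_iff, Fermat.Agent.H73.KLDesc.klBc_algebraMap]
  exact P.algebraMap_mem' _

/-- `F_{ℚ̄}` is integral over `F_{K₁}`. -/
theorem klBc_isIntegralElem (f : ↥(laurentBaseChange QBar F₀)) :
    (klBc ι F₀).IsIntegralElem f := by
  letI algF : Algebra ↥(laurentBaseChange K₁ F₀) ↥(laurentBaseChange QBar F₀) :=
    (klBc ι F₀).toAlgebra
  letI algK : Algebra K₁ ↥(laurentBaseChange QBar F₀) :=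
    ((algebraMap QBar ↥(laurentBaseChange QBar F₀)).comp ι).toAlgebra
  haveI tower : IsScalarTower K₁ ↥(laurentBaseChange K₁ F₀) ↥(laurentBaseChange QBar F₀) :=
    IsScalarTower.of_algebraMap_eq
      (fun a => (Fermat.Agent.H73.KLDesc.klBc_algebraMap ι F₀ a).symm)
  have hint : ∀ c : QBar,
      IsIntegral K₁ (algebraMap QBar ↥(laurentBaseChange QBar F₀) c) := by
    intro c
    have hc : IsIntegral ℚ c := ((AlgebraicClosure.isAlgebraic ℚ).isAlgebraic c).isIntegral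
    obtain ⟨p, hp, hpc⟩ := hc
    refine ⟨p.map (algebraMap ℚ K₁), hp.map _, ?_⟩
    rw [Polynomial.eval₂_map]
    have hcomp : (algebraMap K₁ ↥(laurentBaseChange QBar F₀)).comp (algebraMap ℚ K₁)
        = (algebraMap QBar ↥(laurentBaseChange QBar F₀)).comp (algebraMap ℚ QBar) :=
      Subsingleton.elim _ _
    rw [hcomp, ← Polynomial.hom_eval₂, hpc, map_zero]
  have h := Fermat.Agent.H73.KLDesc.mem_of_mem_closure ι F₀
    (algebraicClosure ↥(laurentBaseChange K₁ F₀) ↥(laurentBaseChange QBar F₀)).toSubfield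
    (fun c => (mem_algebraicClosure_iff').2 ((hint c).tower_top))
    (fun g => IntermediateField.algebraMap_mem _ g) f.1 f.2
  exact (mem_algebraicClosure_iff').1 h

/-- The restriction of a place is not the trivial valuation ring. -/
theorem pgRes_ne_top (P : Place QBar ↥(laurentBaseChange QBar F₀)) :
    pgRes ι F₀ P ≠ ⊤ := by
  intro htop
  apply P.ne_top'
  rw [eq_top_iff]
  intro f _
  have hall : ∀ g : ↥(laurentBaseChange K₁ F₀), klBc ι F₀ g ∈ P.toValuationSubring := by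
    intro g
    have hg : g ∈ pgRes ι F₀ P := by rw [htop]; trivial
    exact hg
  obtain ⟨q, hq, hqf⟩ := klBc_isIntegralElem ι F₀ f
  let φ : ↥(laurentBaseChange K₁ F₀) →+* ↥P.toValuationSubring :=
    (klBc ι F₀).codRestrict P.toValuationSubring.toSubring hall
  have hφ : (algebraMap ↥P.toValuationSubring ↥(laurentBaseChange QBar F₀)).comp φ
      = klBc ι F₀ := RingHom.ext fun _ => rfl
  have hint : IsIntegral ↥P.toValuationSubring f := by
    refine ⟨q.map φ, hq.map φ, ?_⟩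
    rw [Polynomial.eval₂_map, hφ]
    exact hqf
  obtain ⟨y, hy⟩ := IsIntegrallyClosed.algebraMap_eq_of_integral hint
  rw [← hy]
  exact y.2

/-- A generator of the value group of the restriction. -/
theorem exists_pgRes_gen (P : Place QBar ↥(laurentBaseChange QBar F₀)) :
    ∃ τ : ↥(laurentBaseChange K₁ F₀), 0 < P.ord (klBc ι F₀ τ) ∧
      ∀ g : ↥(laurentBaseChange K₁ F₀), g ≠ 0 →
        P.ord (klBc ι F₀ τ) ∣ P.ord (klBc ι F₀ g) := by
  classical
  have hinj : Function.Injective (klBc ι F₀) := (klBc ι F₀).injective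
  have hne : ∃ n : ℕ, 0 < n ∧ ∃ g : ↥(laurentBaseChange K₁ F₀), g ≠ 0 ∧
      P.ord (klBc ι F₀ g) = n := by
    have h1 : ∃ g : ↥(laurentBaseChange K₁ F₀), g ∉ pgRes ι F₀ P := by
      by_contra hcon
      have hcon' : ∀ g : ↥(laurentBaseChange K₁ F₀), g ∈ pgRes ι F₀ P := fun g => by
        by_contra hg
        exact hcon ⟨g, hg⟩
      exact pgRes_ne_top ι F₀ P (eq_top_iff.mpr fun g _ => hcon' g)
    obtain ⟨g, hg⟩ := h1
    have hg0 : g ≠ 0 := fun h0 => hg (h0 ▸ (pgRes ι F₀ P).zero_mem)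
    have hlt : P.ord (klBc ι F₀ g) < 0 := by
      by_contra hc
      exact hg (Fermat.Agent.H23.mem_of_ord_nonneg P (not_lt.mp hc))
    refine ⟨(-P.ord (klBc ι F₀ g)).toNat, by omega, g⁻¹, inv_ne_zero hg0, ?_⟩
    rw [map_inv₀, Place.ord_inv]
    omega
  obtain ⟨⟨he, τ, hτ0, hτ⟩, hmin⟩ := Nat.find_spec hne, fun m => Nat.find_min hne (m := m)
  set e := Nat.find hne with he_def
  refine ⟨τ, by rw [hτ]; exact_mod_cast he, fun g hg0 => ?_⟩
  rw [hτ]
  set m := P.ord (klBc ι F₀ g) with hm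
  by_contra hdvd
  have hr0 : m % (e : ℤ) ≠ 0 := fun h0 => hdvd (Int.dvd_of_emod_eq_zero h0)
  have hepos : (0 : ℤ) < e := by exact_mod_cast he
  have hr1 : 0 ≤ m % (e : ℤ) := Int.emod_nonneg _ hepos.ne'
  have hr2 : m % (e : ℤ) < e := Int.emod_lt_of_pos _ hepos
  have hbτ0 : klBc ι F₀ τ ≠ 0 := fun h0 => hτ0 (hinj (h0.trans (map_zero _).symm))
  have hbg0 : klBc ι F₀ g ≠ 0 := fun h0 => hg0 (hinj (h0.trans (map_zero _).symm))
  have hord : P.ord (klBc ι F₀ (g * τ ^ (-(m / (e : ℤ))))) = m % (e : ℤ) := by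
    rw [map_mul, map_zpow₀, Place.ord_mul _ hbg0 (zpow_ne_zero _ hbτ0), Place.ord_zpow, hτ,
      ← hm]
    have h9 := Int.emod_add_mul_ediv m (e : ℤ)
    linarith [h9, mul_comm (e : ℤ) (m / e)]
  have hlt : (m % (e : ℤ)).toNat < e := by omega
  refine hmin _ hlt ⟨by omega, g * τ ^ (-(m / (e : ℤ))),
    mul_ne_zero hg0 (zpow_ne_zero _ hτ0), ?_⟩
  rw [hord]
  omega

/-- The restriction is a discrete valuation ring, with uniformiser any generator of the value
group. -/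
theorem pgRes_dvr_of_gen (P : Place QBar ↥(laurentBaseChange QBar F₀))
    (τ : ↥(laurentBaseChange K₁ F₀)) (hτ : 0 < P.ord (klBc ι F₀ τ))
    (hdiv : ∀ g : ↥(laurentBaseChange K₁ F₀), g ≠ 0 →
      P.ord (klBc ι F₀ τ) ∣ P.ord (klBc ι F₀ g)) :
    τ ≠ 0 ∧ τ ∈ (pgRes ι F₀ P).nonunits ∧
    (∀ g : ↥(laurentBaseChange K₁ F₀), g ≠ 0 →
      ∃ n : ℤ, g * τ ^ n ∈ pgRes ι F₀ P ∧ (g * τ ^ n)⁻¹ ∈ pgRes ι F₀ P) ∧
    ∃ hτV : τ ∈ pgRes ι F₀ P, Irreducible (⟨τ, hτV⟩ : ↥(pgRes ι F₀ P)) ∧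
      IsDiscreteValuationRing ↥(pgRes ι F₀ P) := by
  have hinj : Function.Injective (klBc ι F₀) := (klBc ι F₀).injective
  have hτ0 : τ ≠ 0 := by
    rintro rfl
    rw [map_zero, Place.ord_zero] at hτ
    exact lt_irrefl _ hτ
  have hbτ0 : klBc ι F₀ τ ≠ 0 := fun h0 => hτ0 (hinj (h0.trans (map_zero _).symm))
  have hτV : τ ∈ pgRes ι F₀ P := Fermat.Agent.H23.mem_of_ord_nonneg P hτ.le
  have hτi : τ⁻¹ ∉ pgRes ι F₀ P := by
    intro h
    have h1 := Fermat.Agent.H23.ord_nonneg_of_mem P ((mem_pgRes_iff ι F₀ P _).1 h)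
    rw [map_inv₀, Place.ord_inv] at h1
    omega
  have hu : ∀ g : ↥(laurentBaseChange K₁ F₀), g ≠ 0 →
      ∃ n : ℤ, g * τ ^ n ∈ pgRes ι F₀ P ∧ (g * τ ^ n)⁻¹ ∈ pgRes ι F₀ P := by
    intro g hg0
    have hbg0 : klBc ι F₀ g ≠ 0 := fun h0 => hg0 (hinj (h0.trans (map_zero _).symm))
    obtain ⟨k, hk⟩ := hdiv g hg0
    have hord : P.ord (klBc ι F₀ (g * τ ^ (-k))) = 0 := by
      rw [map_mul, map_zpow₀, Place.ord_mul _ hbg0 (zpow_ne_zero _ hbτ0), Place.ord_zpow, hk]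
      ring
    refine ⟨-k, Fermat.Agent.H23.mem_of_ord_nonneg P hord.ge, ?_⟩
    rw [mem_pgRes_iff]
    refine Fermat.Agent.H23.mem_of_ord_nonneg P ?_
    rw [map_inv₀, Place.ord_inv, hord]
    simp
  have hnon : τ ∈ (pgRes ι F₀ P).nonunits := by
    rw [ValuationSubring.mem_nonunits_iff_or]
    exact Or.inr hτi
  exact ⟨hτ0, hnon, hu, hτV, Fermat.Agent.H73.KLDesc.irreducible_and_dvr _ τ hτV hτi hu⟩

theorem pgRes_isDiscreteValuationRing (P : Place QBar ↥(laurentBaseChange QBar F₀)) :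
    IsDiscreteValuationRing ↥(pgRes ι F₀ P) := by
  obtain ⟨τ, hτ, hdiv⟩ := exists_pgRes_gen ι F₀ P
  obtain ⟨-, -, -, -, -, h⟩ := pgRes_dvr_of_gen ι F₀ P τ hτ hdiv
  exact h

/-- **The restricted place.** -/
def pgPlace (P : Place QBar ↥(laurentBaseChange QBar F₀)) :
    Place K₁ ↥(laurentBaseChange K₁ F₀) where
  toValuationSubring := pgRes ι F₀ P
  algebraMap_mem' := algebraMap_mem_pgRes ι F₀ P
  ne_top' := pgRes_ne_top ι F₀ P
  isPrincipalIdealRing' := by
    haveI := pgRes_isDiscreteValuationRing ι F₀ P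
    infer_instance

theorem pgPlace_toValuationSubring (P : Place QBar ↥(laurentBaseChange QBar F₀)) :
    (pgPlace ι F₀ P).toValuationSubring = pgRes ι F₀ P := rfl

/-- If a uniformiser of `P` descends to `F_{K₁}`, the restriction is unramified. -/
theorem pgPlace_ord (P : Place QBar ↥(laurentBaseChange QBar F₀))
    (τ : ↥(laurentBaseChange K₁ F₀)) (hτ : P.ord (klBc ι F₀ τ) = 1)
    (g : ↥(laurentBaseChange K₁ F₀)) :
    P.ord (klBc ι F₀ g) = (pgPlace ι F₀ P).ord g := by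
  have hinj : Function.Injective (klBc ι F₀) := (klBc ι F₀).injective
  rcases eq_or_ne g 0 with rfl | hg0
  · rw [map_zero, Place.ord_zero, Place.ord_zero]
  obtain ⟨hτ0, -, -, hτV, hirr, -⟩ := pgRes_dvr_of_gen ι F₀ P τ (by rw [hτ]; exact one_pos)
    (fun g _ => by rw [hτ]; exact one_dvd _)
  have hirr' : Irreducible (⟨τ, hτV⟩ : ↥(pgPlace ι F₀ P).toValuationSubring) := hirr
  obtain ⟨u, hu⟩ := (pgPlace ι F₀ P).exists_unit_mul_zpow hg0 hirr'
  have hbτ0 : klBc ι F₀ τ ≠ 0 := fun h0 => hτ0 (hinj (h0.trans (map_zero _).symm))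
  have hu0 : ((u : ↥(pgPlace ι F₀ P).toValuationSubring) :
      ↥(laurentBaseChange K₁ F₀)) ≠ 0 := by
    simp [ne_eq, ZeroMemClass.coe_eq_zero]
  have hbu0 : klBc ι F₀ ((u : ↥(pgPlace ι F₀ P).toValuationSubring) :
      ↥(laurentBaseChange K₁ F₀)) ≠ 0 := fun h0 => hu0 (hinj (h0.trans (map_zero _).symm))
  have h1 : 0 ≤ P.ord (klBc ι F₀ ((u : ↥(pgPlace ι F₀ P).toValuationSubring) :
      ↥(laurentBaseChange K₁ F₀))) :=
    Fermat.Agent.H23.ord_nonneg_of_mem P (u : ↥(pgPlace ι F₀ P).toValuationSubring).2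
  have h2 : 0 ≤ P.ord (klBc ι F₀ (((u⁻¹ : (↥(pgPlace ι F₀ P).toValuationSubring)ˣ) :
      ↥(pgPlace ι F₀ P).toValuationSubring) : ↥(laurentBaseChange K₁ F₀))) :=
    Fermat.Agent.H23.ord_nonneg_of_mem P
      ((u⁻¹ : (↥(pgPlace ι F₀ P).toValuationSubring)ˣ) :
        ↥(pgPlace ι F₀ P).toValuationSubring).2
  have h3 : (((u⁻¹ : (↥(pgPlace ι F₀ P).toValuationSubring)ˣ) :
      ↥(pgPlace ι F₀ P).toValuationSubring) : ↥(laurentBaseChange K₁ F₀))
      = ((u : ↥(pgPlace ι F₀ P).toValuationSubring) : ↥(laurentBaseChange K₁ F₀))⁻¹ := by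
    have h4 : ((u : ↥(pgPlace ι F₀ P).toValuationSubring) : ↥(laurentBaseChange K₁ F₀)) *
        (((u⁻¹ : (↥(pgPlace ι F₀ P).toValuationSubring)ˣ) :
          ↥(pgPlace ι F₀ P).toValuationSubring) : ↥(laurentBaseChange K₁ F₀)) = 1 := by
      have h9 := congrArg (fun z : ↥(pgPlace ι F₀ P).toValuationSubring =>
        (z : ↥(laurentBaseChange K₁ F₀))) (Units.mul_inv u)
      exact h9
    exact eq_inv_of_mul_eq_one_right h4
  rw [h3, map_inv₀, Place.ord_inv] at h2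
  have h5 : P.ord (klBc ι F₀ ((u : ↥(pgPlace ι F₀ P).toValuationSubring) :
      ↥(laurentBaseChange K₁ F₀))) = 0 := by omega
  conv_lhs => rw [hu]
  rw [map_mul, map_zpow₀, Place.ord_mul _ hbu0 (zpow_ne_zero _ hbτ0), Place.ord_zpow, h5, hτ]
  simp

end Generic

end Fermat.Agent.H67.ORD
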